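/-
Programme S33 (row 32), brick EIGEN (helper62): **eigen-decomposition of a `p`-distinguished
endomorphism in rank two over a Henselian local ring**.

`T` a Henselian local ring (no reducedness needed), `V` free of rank two over `T`, `a : V →ₗ[T] V`
with `det a = e0`, `e0 - 1` a unit and `tr a ≡ e0 + 1` modulo the maximal ideal.  Then the
characteristic polynomial `X² - (tr a) X + e0` has the two roots `β ≡ 1`, `α ≡ e0` (Hensel), their
difference is a unit, `(a - α)(a - β) = 0` (Cayley--Hamilton), and `V` has a basis of eigenvectors.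

All the ingredients are in helper76's landed `S33P/Alg76/Cubic.lean` (`exists_roots`, `cayley_two`,
`finrank_eig`, `exists_gen_of_finrank_one`, the projectors `projA`, `projB`); this file only
assembles them in the announced shape, in three forms (explicit Hensel hypothesis, Henselian
local ring, adically complete local ring), and records
`henselianLocalRing_of_isAdicComplete`.
-/
import Fermat.Agent.S33P.Alg76.Cubic

set_option autoImplicit false
set_option linter.unusedSectionVars false
set_option linter.style.haveILetI false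

open IsLocalRing

namespace Fermat.Agent.S33P.Eigen62

open Fermat.Agent.S33P.Alg76

/-- A local ring which is complete for its maximal ideal is a Henselian local ring
(instance-free form; Mathlib only has the `HenselianRing T (maximalIdeal T)` instance). -/
theorem henselianLocalRing_of_isAdicComplete (T : Type*) [CommRing T] [h : IsLocalRing T]
    [IsAdicComplete (maximalIdeal T) T] : HenselianLocalRing T :=
  { h with is_henselian := henselProp_of_isAdicComplete T }

/-- **EIGEN, explicit Hensel hypothesis.** -/
theorem exists_eigen_decomp_of_henselProp {T : Type*} [CommRing T] [IsLocalRing T]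
    (hH : HenselProp T)
    {V : Type*} [AddCommGroup V] [Module T V] [Module.Free T V] [Module.Finite T V]
    (hV : Module.finrank T V = 2) (a : V →ₗ[T] V) (e0 : T)
    (hdet : LinearMap.det a = e0) (hu : IsUnit (e0 - 1))
    (htr : LinearMap.trace T V a - (e0 + 1) ∈ maximalIdeal T) :
    ∃ α β : T, β - 1 ∈ maximalIdeal T ∧ α - e0 ∈ maximalIdeal T ∧ IsUnit (α - β) ∧
      IsUnit (α - 1) ∧ α * β = e0 ∧ α + β = LinearMap.trace T V a ∧
      (a - α • (1 : Module.End T V)) * (a - β • (1 : Module.End T V)) = 0 ∧
      ∃ b : Module.Basis (Fin 2) T V, a (b 0) = α • b 0 ∧ a (b 1) = β • b 1 := by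
  obtain ⟨α, β, hsum, hprod, hβ1, huαβ⟩ :=
    exists_roots hH (LinearMap.trace T V a) (LinearMap.det a) e0 hdet hu htr
  have hαe : α - e0 ∈ maximalIdeal T := by
    have : α - e0 = (LinearMap.trace T V a - (e0 + 1)) - (β - 1) := by
      rw [← hsum]; ring
    rw [this]
    exact sub_mem htr hβ1
  have hα1 : IsUnit (α - 1) := by
    apply isUnit_of_sub_mem hu
    have : α - 1 - (e0 - 1) = α - e0 := by ring
    rw [this]
    exact hαe
  obtain ⟨u, hu'⟩ := huαβ
  have hA : ∀ v, a (a v) = (α + β) • a v - (α * β) • v := by
    intro v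
    rw [hsum, hprod]
    exact cayley_two hV a v
  refine ⟨α, β, hβ1, hαe, ⟨u, hu'⟩, hα1, hprod.trans hdet, hsum, ?_, ?_⟩
  · ext v
    simp only [Module.End.mul_apply, LinearMap.sub_apply, LinearMap.smul_apply,
      Module.End.one_apply, LinearMap.zero_apply, map_sub, map_smul]
    rw [hA v]
    module
  · obtain ⟨h1α, h1β⟩ := finrank_eig a α β u hu' hA hV hsum.symm
    haveI := free_eigA a α β u hu' hA
    haveI := free_eigB a α β u hu' hA
    haveI := finite_eigA a α β u hu' hA
    haveI := finite_eigB a α β u hu' hA
    obtain ⟨x, hxgen, hxtors⟩ := exists_gen_of_finrank_one h1α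
    obtain ⟨y, hygen, hytors⟩ := exists_gen_of_finrank_one h1β
    have hAx : a (x : V) = α • (x : V) := (mem_eig a).1 x.2
    have hAy : a (y : V) = β • (y : V) := (mem_eig a).1 y.2
    have hytors' : ∀ c : T, c • (y : V) = 0 → c = 0 := fun c hc =>
      hytors c (Subtype.ext hc)
    have hxtors' : ∀ c : T, c • (x : V) = 0 → c = 0 := fun c hc =>
      hxtors c (Subtype.ext hc)
    have hli : LinearIndependent T ![(x : V), (y : V)] := by
      rw [LinearIndependent.pair_iff]
      intro s t hst
      have h1 := congrArg (projA a β u) hst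
      rw [map_add, map_smul, map_smul, projA_eq_self_of_eigen a α β u hu' hAx,
        projA_eq_zero_of_eigen a β u hAy, smul_zero, add_zero, map_zero] at h1
      have hs := hxtors' s h1
      rw [hs, zero_smul, zero_add] at hst
      exact ⟨hs, hytors' t hst⟩
    have hsp : ⊤ ≤ Submodule.span T (Set.range ![(x : V), (y : V)]) := by
      intro v _
      have hA' : projA a β u v ∈ eig a α := (mem_eig a).2 (apply_projA a α β u hA _)
      have hB' : projB a α u v ∈ eig a β := (mem_eig a).2 (apply_projB a α β u hA _)
      obtain ⟨c, hc⟩ := hxgen ⟨_, hA'⟩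
      obtain ⟨d, hd⟩ := hygen ⟨_, hB'⟩
      have hc' : projA a β u v = c • (x : V) := congrArg Subtype.val hc
      have hd' : projB a α u v = d • (y : V) := congrArg Subtype.val hd
      rw [← projA_add_projB a α β u hu' v, hc', hd']
      exact add_mem (Submodule.smul_mem _ _ (Submodule.subset_span ⟨0, rfl⟩))
        (Submodule.smul_mem _ _ (Submodule.subset_span ⟨1, rfl⟩))
    refine ⟨Module.Basis.mk hli hsp, ?_, ?_⟩
    · rw [Module.Basis.mk_apply]
      exact hAx
    · rw [Module.Basis.mk_apply]
      exact hAy

set_option linter.overlappingInstances false in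
/-- **EIGEN** (brick signature of the S33 convener): eigen-decomposition of a `p`-distinguished
rank two endomorphism over a Henselian local ring. -/
theorem exists_eigen_decomp {T : Type*} [CommRing T] [IsLocalRing T] [HenselianLocalRing T]
    {V : Type*} [AddCommGroup V] [Module T V] [Module.Free T V] [Module.Finite T V]
    (hV : Module.finrank T V = 2) (a : V →ₗ[T] V) (e0 : T)
    (hdet : LinearMap.det a = e0) (hu : IsUnit (e0 - 1))
    (htr : LinearMap.trace T V a - (e0 + 1) ∈ maximalIdeal T) :
    ∃ α β : T, β - 1 ∈ maximalIdeal T ∧ α - e0 ∈ maximalIdeal T ∧ IsUnit (α - β) ∧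
      IsUnit (α - 1) ∧ α * β = e0 ∧ α + β = LinearMap.trace T V a ∧
      (a - α • (1 : Module.End T V)) * (a - β • (1 : Module.End T V)) = 0 ∧
      ∃ b : Module.Basis (Fin 2) T V, a (b 0) = α • b 0 ∧ a (b 1) = β • b 1 :=
  exists_eigen_decomp_of_henselProp (henselProp_of_henselianLocalRing T) hV a e0 hdet hu htr

/-- **EIGEN, complete local form.** -/
theorem exists_eigen_decomp_of_complete {T : Type*} [CommRing T] [IsLocalRing T]
    [IsAdicComplete (maximalIdeal T) T]
    {V : Type*} [AddCommGroup V] [Module T V] [Module.Free T V] [Module.Finite T V]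
    (hV : Module.finrank T V = 2) (a : V →ₗ[T] V) (e0 : T)
    (hdet : LinearMap.det a = e0) (hu : IsUnit (e0 - 1))
    (htr : LinearMap.trace T V a - (e0 + 1) ∈ maximalIdeal T) :
    ∃ α β : T, β - 1 ∈ maximalIdeal T ∧ α - e0 ∈ maximalIdeal T ∧ IsUnit (α - β) ∧
      IsUnit (α - 1) ∧ α * β = e0 ∧ α + β = LinearMap.trace T V a ∧
      (a - α • (1 : Module.End T V)) * (a - β • (1 : Module.End T V)) = 0 ∧
      ∃ b : Module.Basis (Fin 2) T V, a (b 0) = α • b 0 ∧ a (b 1) = β • b 1 :=
  exists_eigen_decomp_of_henselProp (henselProp_of_isAdicComplete T) hV a e0 hdet hu htr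

end Fermat.Agent.S33P.Eigen62
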